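import Fermat.Agent.CFT.KummerTheory.Pairing

/-!
# Kummer theory of exponent `n`: Galois property, degree formula, perfectness of the pairing
-/

set_option autoImplicit false

namespace Fermat.Agent.CFT.KummerTheory

open Polynomial IntermediateField

variable {K L : Type*} [Field K] [Field L] [Algebra K L] {n : ℕ}

/-- Counting lemma: a set injecting into the character group of a finite commutative group `A`
of exponent dividing `m` has at most `|A|` elements. -/
theorem card_le_card_of_injective_monoidHom {X A M : Type*} [CommGroup A] [Finite A] [CommMonoid M]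
    (m : ℕ) [NeZero m] [HasEnoughRootsOfUnity M m] (hA : ∀ a : A, a ^ m = 1)
    (f : X → (A →* Mˣ)) (hf : Function.Injective f) : Nat.card X ≤ Nat.card A := by
  have hexp : Monoid.exponent A ∣ m := Monoid.exponent_dvd_of_forall_pow_eq_one hA
  have : HasEnoughRootsOfUnity M (Monoid.exponent A) := HasEnoughRootsOfUnity.of_dvd M hexp
  calc Nat.card X ≤ Nat.card (A →* Mˣ) := Nat.card_le_card_of_injective f hf
    _ = Nat.card A := CommGroup.card_monoidHom_of_hasEnoughRootsOfUnity A M

/-- The same for a group known to be commutative only through a hypothesis. -/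
theorem card_le_card_of_injective_monoidHom' {X G M : Type*} [Group G] [Finite G] [CommMonoid M]
    (m : ℕ) [NeZero m] [HasEnoughRootsOfUnity M m] (hcomm : ∀ a b : G, a * b = b * a)
    (hG : ∀ a : G, a ^ m = 1)
    (f : X → (G →* Mˣ)) (hf : Function.Injective f) : Nat.card X ≤ Nat.card G := by
  let _ : CommGroup G := { (inferInstance : Group G) with mul_comm := hcomm }
  exact card_le_card_of_injective_monoidHom m hG f hf

namespace IsKummer

variable [NeZero n] {D : Subgroup Kˣ} (h : IsKummer n D L)

include h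

theorem exists_primitiveRoot_top : ∃ ζ : L, IsPrimitiveRoot ζ n := by
  obtain ⟨ζ, hζ⟩ := h.prim
  rw [mem_primitiveRoots (NeZero.pos n)] at hζ
  exact ⟨algebraMap K L ζ, hζ.map_of_injective (algebraMap K L).injective⟩

theorem hasEnoughRootsOfUnity : HasEnoughRootsOfUnity L n :=
  ⟨h.exists_primitiveRoot_top, rootsOfUnity.isCyclic L n⟩

omit [NeZero n] h in
theorem aeval_eq_zero_of_mem_radicalSet {β : L} {a : Kˣ}
    (hβ : β ^ n = algebraMap K L (a : K)) : aeval β (X ^ n - C (a : K)) = 0 := by
  simp [hβ]

omit h in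
theorem isIntegral_of_mem_radicalSet {β : L} (hβ : β ∈ radicalSet n D L) : IsIntegral K β := by
  obtain ⟨a, -, hβ⟩ := hβ
  exact ⟨X ^ n - C (a : K), monic_X_pow_sub_C _ (NeZero.ne n),
    by simpa [aeval_def] using aeval_eq_zero_of_mem_radicalSet hβ⟩

theorem isSeparable_of_mem_radicalSet {β : L} (hβ : β ∈ radicalSet n D L) : IsSeparable K β := by
  obtain ⟨a, -, hβ⟩ := hβ
  have hsep : (X ^ n - C (a : K)).Separable :=
    separable_X_pow_sub_C (a : K) h.natCast_ne_zero a.ne_zero
  exact hsep.of_dvd (minpoly.dvd K β (aeval_eq_zero_of_mem_radicalSet hβ))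

theorem splits_minpoly_of_mem_radicalSet {β : L} (hβ : β ∈ radicalSet n D L) :
    ((minpoly K β).map (algebraMap K L)).Splits := by
  obtain ⟨a, -, hβ⟩ := hβ
  obtain ⟨ζ, hζ⟩ := h.exists_primitiveRoot_top
  have hs : (X ^ n - C (algebraMap K L (a : K))).Splits :=
    X_pow_sub_C_splits_of_isPrimitiveRoot hζ hβ
  have hmap : (X ^ n - C (a : K)).map (algebraMap K L) = X ^ n - C (algebraMap K L (a : K)) := by
    simp
  have hne : (X ^ n - C (algebraMap K L (a : K))) ≠ 0 :=
    (monic_X_pow_sub_C _ (NeZero.ne n)).ne_zero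
  refine hs.of_dvd hne ?_
  rw [← hmap]
  exact Polynomial.map_dvd _ (minpoly.dvd K β (aeval_eq_zero_of_mem_radicalSet hβ))

theorem isIntegral (x : L) : IsIntegral K x := by
  have hx : x ∈ IntermediateField.adjoin K (radicalSet n D L) := by
    rw [h.adjoin_eq_top]; trivial
  have := IntermediateField.isAlgebraic_adjoin (K := K) (S := radicalSet n D L)
    fun y hy => isIntegral_of_mem_radicalSet hy
  exact (Algebra.IsIntegral.isIntegral
    (⟨x, hx⟩ : IntermediateField.adjoin K (radicalSet n D L))).map
    (IntermediateField.adjoin K (radicalSet n D L)).val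

/-- A Kummer extension is normal. -/
theorem normal : Normal K L := by
  rw [normal_iff]
  intro x
  refine ⟨h.isIntegral x, ?_⟩
  have hx : x ∈ IntermediateField.adjoin K (radicalSet n D L) := by
    rw [h.adjoin_eq_top]; trivial
  exact IntermediateField.splits_of_mem_adjoin K L (L := L) (S := radicalSet n D L)
    (fun y hy => ⟨isIntegral_of_mem_radicalSet hy, h.splits_minpoly_of_mem_radicalSet hy⟩) hx

/-- A Kummer extension is separable. -/
theorem isSeparable : Algebra.IsSeparable K L := by
  have h1 : Algebra.IsSeparable K (IntermediateField.adjoin K (radicalSet n D L)) :=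
    (IntermediateField.isSeparable_adjoin_iff_isSeparable K L).mpr
      fun x hx => h.isSeparable_of_mem_radicalSet hx
  rw [h.adjoin_eq_top] at h1
  exact AlgEquiv.Algebra.isSeparable (IntermediateField.topEquiv (F := K) (E := L))

/-- A Kummer extension is Galois. -/
theorem isGalois : IsGalois K L :=
  isGalois_iff.mpr ⟨h.isSeparable, h.normal⟩

/-- Right non-degeneracy: an element of `D` pairing trivially with the whole Galois group is an
`n`-th power. -/
theorem mem_nthPowers_of_chi_eq_one (a : D) (ha : ∀ σ : L ≃ₐ[K] L, h.chi σ a = 1) :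
    (a : Kˣ) ∈ nthPowers n K := by
  have := h.isGalois
  have hfix : ((h.root a : Lˣ) : L) ∈ IntermediateField.fixedField (⊤ : Subgroup (L ≃ₐ[K] L)) := by
    rw [IntermediateField.mem_fixedField_iff]
    intro σ _
    have := ha σ
    rwa [h.chi_apply, kq_eq_one_iff] at this
  rw [InfiniteGalois.fixedField_bot, IntermediateField.mem_bot] at hfix
  obtain ⟨c, hc⟩ := hfix
  have hc0 : c ≠ 0 := by
    rintro rfl
    rw [map_zero] at hc
    exact (h.root a).ne_zero hc.symm
  refine ⟨Units.mk0 c hc0, ?_⟩
  apply unitsMap_injective (K := K) (L := L)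
  rw [powMonoidHom_apply, map_pow, ← h.root_pow]
  congr 1
  exact Units.ext hc

theorem chi_eq_one_iff_mem_nthPowers (a : D) :
    (∀ σ : L ≃ₐ[K] L, h.chi σ a = 1) ↔ (a : Kˣ) ∈ nthPowers n K :=
  ⟨h.mem_nthPowers_of_chi_eq_one a, fun ha σ => h.chi_of_mem_nthPowers σ a ha⟩

/-- The flipped pairing `D →* (Gal(L/K) →* Lˣ)`. -/
noncomputable def psi : D →* ((L ≃ₐ[K] L) →* Lˣ) := h.chi.flip

theorem psi_apply (a : D) (σ : L ≃ₐ[K] L) : h.psi a σ = h.chi σ a := rfl

theorem ker_psi : h.psi.ker = (nthPowers n K).subgroupOf D := by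
  ext a
  rw [MonoidHom.mem_ker, Subgroup.mem_subgroupOf, ← h.chi_eq_one_iff_mem_nthPowers]
  constructor
  · intro ha σ
    rw [← h.psi_apply, ha]; rfl
  · intro ha
    ext σ
    rw [h.psi_apply, ha]; rfl


/-! ### Finiteness and the degree formula -/

/-- Every radical is, up to a factor from `K`, the chosen root of a coset representative. -/
theorem mem_adjoin_of_quotient_eq {β : L} {a : D} (hβ : β ^ n = algebraMap K L ((a : Kˣ) : K))
    {t : D} (ht : (QuotientGroup.mk t : D ⧸ (nthPowers n K).subgroupOf D) = QuotientGroup.mk a)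
    {T : Set L} (hT : ((h.root t : Lˣ) : L) ∈ T) : β ∈ IntermediateField.adjoin K T := by
  rw [QuotientGroup.eq, Subgroup.mem_subgroupOf] at ht
  obtain ⟨c, hc⟩ := ht
  have hβ0 : β ≠ 0 := by
    rintro rfl
    rw [zero_pow (NeZero.ne n)] at hβ
    exact (Units.ne_zero (unitsMap K L (a : Kˣ))) hβ.symm
  have h1 : (Units.mk0 β hβ0) ^ n = (h.root t * unitsMap K L c) ^ n := by
    rw [mul_pow, h.root_pow, ← map_pow, ← map_mul]
    have : (t : Kˣ) * c ^ n = a := by
      have hc' : c ^ n = ((t⁻¹ * a : D) : Kˣ) := hc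
      rw [hc']
      simp
    rw [this]
    exact Units.ext (by simpa using hβ)
  obtain ⟨z, -, hz⟩ := exists_unitsMap_mul_eq_of_pow_eq h.prim h1
  have hβ' : β = algebraMap K L (z : K) * (((h.root t : Lˣ) : L) * algebraMap K L (c : K)) := by
    have := congrArg (fun u : Lˣ => (u : L)) hz
    simpa using this
  rw [hβ']
  exact mul_mem (IntermediateField.algebraMap_mem _ _)
    (mul_mem (IntermediateField.subset_adjoin K T hT) (IntermediateField.algebraMap_mem _ _))

/-- If `D / (D ∩ Kˣⁿ)` is finite, the Kummer extension is finite. -/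
theorem finiteDimensional (hfin : (nthPowers n K).relIndex D ≠ 0) : FiniteDimensional K L := by
  have hfinA : Finite (D ⧸ (nthPowers n K).subgroupOf D) :=
    Subgroup.index_ne_zero_iff_finite.mp hfin
  let T : Set L := Set.range fun q : D ⧸ (nthPowers n K).subgroupOf D =>
    ((h.root (Quotient.out q) : Lˣ) : L)
  have hTfin : Finite T := Set.finite_range _
  have hTint : ∀ x ∈ T, IsIntegral K x := fun x _ => h.isIntegral x
  have hFD : FiniteDimensional K (IntermediateField.adjoin K T) :=
    IntermediateField.finiteDimensional_adjoin hTint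
  have htop : IntermediateField.adjoin K T = ⊤ := by
    rw [eq_top_iff, ← h.adjoin_eq_top, IntermediateField.adjoin_le_iff]
    rintro β ⟨a, ha, hβ⟩
    refine h.mem_adjoin_of_quotient_eq (a := ⟨a, ha⟩) hβ
      (t := Quotient.out (QuotientGroup.mk ⟨a, ha⟩ : D ⧸ (nthPowers n K).subgroupOf D)) ?_ ?_
    · exact Quotient.out_eq _
    · exact ⟨_, rfl⟩
  rw [htop] at hFD
  exact LinearEquiv.finiteDimensional
    (IntermediateField.topEquiv (F := K) (E := L)).toLinearEquiv

omit [Field L] [Algebra K L] [NeZero n] h in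
/-- The quotient `D / (D ∩ Kˣⁿ)` has exponent dividing `n`. -/
theorem quotient_pow_eq_one (q : D ⧸ (nthPowers n K).subgroupOf D) : q ^ n = 1 := by
  obtain ⟨a, rfl⟩ := QuotientGroup.mk_surjective q
  rw [← QuotientGroup.mk_pow, QuotientGroup.eq_one_iff, Subgroup.mem_subgroupOf]
  exact ⟨(a : Kˣ), by simp⟩

/-- The character of `D / (D ∩ Kˣⁿ)` attached to an automorphism. -/
noncomputable def chiBar (σ : L ≃ₐ[K] L) : (D ⧸ (nthPowers n K).subgroupOf D) →* Lˣ :=
  QuotientGroup.lift _ (h.chi σ) fun a ha =>
    h.chi_of_mem_nthPowers σ a (Subgroup.mem_subgroupOf.mp ha)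

@[simp] theorem chiBar_mk (σ : L ≃ₐ[K] L) (a : D) :
    h.chiBar σ (QuotientGroup.mk a) = h.chi σ a := rfl

theorem chiBar_injective : Function.Injective h.chiBar := by
  intro σ τ hστ
  apply h.chi_injective
  ext a
  have := DFunLike.congr_fun hστ (QuotientGroup.mk a)
  simpa using congrArg Units.val this

/-- **Degree formula of Kummer theory**: `[L : K] = [D : D ∩ Kˣⁿ]`. -/
theorem finrank_eq_relIndex (hfin : (nthPowers n K).relIndex D ≠ 0) :
    Module.finrank K L = (nthPowers n K).relIndex D := by
  have := h.isGalois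
  have := h.finiteDimensional hfin
  have hfinA : Finite (D ⧸ (nthPowers n K).subgroupOf D) :=
    Subgroup.index_ne_zero_iff_finite.mp hfin
  have hL := h.hasEnoughRootsOfUnity
  rw [← IsGalois.card_aut_eq_finrank K L]
  apply le_antisymm
  · -- `G ↪ Hom(D/P, Lˣ)`
    calc Nat.card (L ≃ₐ[K] L)
        ≤ Nat.card (D ⧸ (nthPowers n K).subgroupOf D) :=
          card_le_card_of_injective_monoidHom (M := L) n quotient_pow_eq_one h.chiBar
            h.chiBar_injective
      _ = (nthPowers n K).relIndex D := (Subgroup.index_eq_card _).symm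
  · -- `D/P ↪ Hom(G, Lˣ)`
    calc (nthPowers n K).relIndex D = h.psi.ker.index := by rw [h.ker_psi]; rfl
      _ = Nat.card h.psi.range := Subgroup.index_ker _
      _ ≤ Nat.card (L ≃ₐ[K] L) :=
          card_le_card_of_injective_monoidHom' (M := L) n h.mul_comm' h.pow_eq_one
            (fun x : h.psi.range => (x : (L ≃ₐ[K] L) →* Lˣ)) Subtype.val_injective

/-- The order of the Galois group of a finite Kummer extension. -/
theorem card_aut_eq_relIndex (hfin : (nthPowers n K).relIndex D ≠ 0) :
    Nat.card (L ≃ₐ[K] L) = (nthPowers n K).relIndex D := by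
  have := h.isGalois
  have := h.finiteDimensional hfin
  rw [IsGalois.card_aut_eq_finrank, h.finrank_eq_relIndex hfin]

end IsKummer

end Fermat.Agent.CFT.KummerTheory
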