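import Mathlib

/-!
# Kummer theory of exponent `n` (multi-radical): the Kummer pairing

`K` a field containing a primitive `n`-th root of unity, `D ≤ Kˣ` a subgroup, `L/K` a field
extension containing an `n`-th root of every element of `D`.  We define the Kummer pairing
`chi : (L ≃ₐ[K] L) →* (D →* Lˣ)`, `chi σ a = σ β / β` for any `β` with `β ^ n = a`.
-/

set_option autoImplicit false

namespace Fermat.Agent.CFT.KummerTheory

open Polynomial IntermediateField

variable {K L : Type*} [Field K] [Field L] [Algebra K L] {n : ℕ}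

/-- The image in `Lˣ` of a unit of `K`. -/
noncomputable abbrev unitsMap (K L : Type*) [Field K] [Field L] [Algebra K L] : Kˣ →* Lˣ :=
  Units.map (algebraMap K L : K →* L)

theorem unitsMap_injective : Function.Injective (unitsMap K L) :=
  Units.map_injective (f := (algebraMap K L : K →* L)) (algebraMap K L).injective

@[simp] theorem coe_unitsMap (a : Kˣ) : ((unitsMap K L a : Lˣ) : L) = algebraMap K L (a : K) := rfl

/-- Every `n`-th root of unity of `L` comes from `K` (when `K` has a primitive one). -/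
theorem exists_algebraMap_eq_of_pow_eq_one [NeZero n] (hζ : (primitiveRoots n K).Nonempty)
    {ξ : L} (hξ : ξ ^ n = 1) : ∃ z : K, z ^ n = 1 ∧ algebraMap K L z = ξ := by
  obtain ⟨ζ, hζ⟩ := hζ
  rw [mem_primitiveRoots (NeZero.pos n)] at hζ
  have hζ' : IsPrimitiveRoot (algebraMap K L ζ) n :=
    hζ.map_of_injective (algebraMap K L).injective
  obtain ⟨i, -, hi⟩ := hζ'.eq_pow_of_pow_eq_one hξ
  refine ⟨ζ ^ i, ?_, by rw [map_pow, hi]⟩
  rw [← pow_mul, mul_comm, pow_mul, hζ.pow_eq_one, one_pow]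

/-- `K`-automorphisms of `L` fix the `n`-th roots of unity. -/
theorem algEquiv_apply_eq_of_pow_eq_one [NeZero n] (hζ : (primitiveRoots n K).Nonempty)
    (σ : L ≃ₐ[K] L) {ξ : L} (hξ : ξ ^ n = 1) : σ ξ = ξ := by
  obtain ⟨z, -, rfl⟩ := exists_algebraMap_eq_of_pow_eq_one hζ hξ
  exact σ.commutes z

/-- Unit version. -/
theorem algEquiv_units_eq_of_pow_eq_one [NeZero n] (hζ : (primitiveRoots n K).Nonempty)
    (σ : L ≃ₐ[K] L) {ξ : Lˣ} (hξ : ξ ^ n = 1) : Units.map (σ : L →* L) ξ = ξ := by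
  apply Units.ext
  have : (ξ : L) ^ n = 1 := by rw [← Units.val_pow_eq_pow_val, hξ, Units.val_one]
  exact algEquiv_apply_eq_of_pow_eq_one hζ σ this

/-- Two `n`-th roots of the same element differ by an element of `K`. -/
theorem exists_unitsMap_mul_eq_of_pow_eq [NeZero n] (hζ : (primitiveRoots n K).Nonempty)
    {β γ : Lˣ} (h : β ^ n = γ ^ n) : ∃ z : Kˣ, z ^ n = 1 ∧ β = unitsMap K L z * γ := by
  have h1 : ((β / γ : Lˣ) : L) ^ n = 1 := by
    rw [← Units.val_pow_eq_pow_val, div_pow, h, div_self', Units.val_one]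
  obtain ⟨z, hz, hz'⟩ := exists_algebraMap_eq_of_pow_eq_one hζ h1
  have hz0 : z ≠ 0 := by
    rintro rfl
    rw [zero_pow (NeZero.ne n)] at hz
    exact zero_ne_one hz
  refine ⟨Units.mk0 z hz0, Units.ext (by simpa using hz), ?_⟩
  have : unitsMap K L (Units.mk0 z hz0) = β / γ := Units.ext (by simpa using hz')
  rw [this, div_mul_cancel]

/-- The Kummer quotient `σ β / β`. -/
noncomputable def kq (σ : L ≃ₐ[K] L) (β : Lˣ) : Lˣ := Units.map (σ : L →* L) β / β

theorem kq_def (σ : L ≃ₐ[K] L) (β : Lˣ) : kq σ β = Units.map (σ : L →* L) β / β := rfl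

@[simp] theorem coe_kq (σ : L ≃ₐ[K] L) (β : Lˣ) : ((kq σ β : Lˣ) : L) = σ β / β := by
  simp [kq, Units.val_div_eq_div_val]

theorem kq_mul_right (σ : L ≃ₐ[K] L) (β γ : Lˣ) : kq σ (β * γ) = kq σ β * kq σ γ := by
  simp only [kq, map_mul]
  exact mul_div_mul_comm _ _ _ _

@[simp] theorem kq_one_left (β : Lˣ) : kq (1 : L ≃ₐ[K] L) β = 1 := by
  apply Units.ext; simp

@[simp] theorem kq_unitsMap (σ : L ≃ₐ[K] L) (c : Kˣ) : kq σ (unitsMap K L c) = 1 := by
  apply Units.ext; simp

theorem kq_eq_one_iff (σ : L ≃ₐ[K] L) (β : Lˣ) : kq σ β = 1 ↔ σ β = β := by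
  rw [← Units.val_inj, coe_kq, Units.val_one, div_eq_one_iff_eq β.ne_zero]

theorem kq_pow (σ : L ≃ₐ[K] L) (β : Lˣ) (m : ℕ) : kq σ (β ^ m) = kq σ β ^ m := by
  simp only [kq, map_pow, div_pow]

/-- If `β ^ n ∈ K` then `σ β / β` is an `n`-th root of unity. -/
theorem kq_pow_eq_one (σ : L ≃ₐ[K] L) {β : Lˣ} {a : Kˣ} (h : β ^ n = unitsMap K L a) :
    kq σ β ^ n = 1 := by
  rw [← kq_pow, h, kq_unitsMap]

/-- The Kummer quotient only depends on `β ^ n`. -/
theorem kq_eq_of_pow_eq [NeZero n] (hζ : (primitiveRoots n K).Nonempty) (σ : L ≃ₐ[K] L)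
    {β γ : Lˣ} (h : β ^ n = γ ^ n) : kq σ β = kq σ γ := by
  obtain ⟨z, -, rfl⟩ := exists_unitsMap_mul_eq_of_pow_eq hζ h
  rw [kq_mul_right, kq_unitsMap, one_mul]

/-- Multiplicativity in the automorphism. -/
theorem kq_mul_left [NeZero n] (hζ : (primitiveRoots n K).Nonempty) (σ τ : L ≃ₐ[K] L)
    {β : Lˣ} {a : Kˣ} (h : β ^ n = unitsMap K L a) : kq (σ * τ) β = kq σ β * kq τ β := by
  have h1 : Units.map (σ : L →* L) (kq τ β) = kq τ β :=
    algEquiv_units_eq_of_pow_eq_one hζ σ (kq_pow_eq_one τ h)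
  have h2 : Units.map ((σ * τ : L ≃ₐ[K] L) : L →* L) β
      = Units.map (σ : L →* L) (Units.map (τ : L →* L) β) := by
    apply Units.ext; simp [AlgEquiv.mul_apply]
  have h3 : Units.map (τ : L →* L) β = kq τ β * β := by
    rw [kq, div_mul_cancel]
  calc kq (σ * τ) β = Units.map (σ : L →* L) (Units.map (τ : L →* L) β) / β := by rw [kq, h2]
    _ = Units.map (σ : L →* L) (kq τ β * β) / β := by rw [← h3]
    _ = (kq τ β * Units.map (σ : L →* L) β) / β := by rw [map_mul, h1]
    _ = kq σ β * kq τ β := by rw [kq_def σ, mul_div_assoc, mul_comm]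


/-! ### Kummer extensions -/

/-- The subgroup of `n`-th powers of `Kˣ`. -/
noncomputable abbrev nthPowers (n : ℕ) (K : Type*) [Field K] : Subgroup Kˣ :=
  (powMonoidHom n : Kˣ →* Kˣ).range

theorem mem_nthPowers_iff {a : Kˣ} : a ∈ nthPowers n K ↔ ∃ c : Kˣ, c ^ n = a := Iff.rfl

/-- The set of `n`-th roots in `L` of the elements of `D ≤ Kˣ`. -/
def radicalSet (n : ℕ) (D : Subgroup Kˣ) (L : Type*) [Field L] [Algebra K L] : Set L :=
  {β : L | ∃ a ∈ D, β ^ n = algebraMap K L ((a : Kˣ) : K)}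

/-- `L/K` is a Kummer extension of exponent `n` with radical group `D ≤ Kˣ`: `K` contains a
primitive `n`-th root of unity, every element of `D` has an `n`-th root in `L`, and these roots
generate `L` over `K`. -/
structure IsKummer (n : ℕ) (D : Subgroup Kˣ) (L : Type*) [Field L] [Algebra K L] : Prop where
  prim : (primitiveRoots n K).Nonempty
  exists_root : ∀ a ∈ D, ∃ β : L, β ^ n = algebraMap K L ((a : Kˣ) : K)
  adjoin_eq_top : IntermediateField.adjoin K (radicalSet n D L) = ⊤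

namespace IsKummer

variable [NeZero n] {D : Subgroup Kˣ} (h : IsKummer n D L)

include h

theorem natCast_ne_zero : (n : K) ≠ 0 := by
  obtain ⟨ζ, hζ⟩ := h.prim
  rw [mem_primitiveRoots (NeZero.pos n)] at hζ
  exact (hζ.neZero' (R := K)).ne

theorem exists_unit_root (a : D) : ∃ β : Lˣ, β ^ n = unitsMap K L a := by
  obtain ⟨β, hβ⟩ := h.exists_root a a.2
  have hβ0 : β ≠ 0 := by
    rintro rfl
    rw [zero_pow (NeZero.ne n)] at hβ
    exact (Units.ne_zero (unitsMap K L (a : Kˣ))) hβ.symm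
  exact ⟨Units.mk0 β hβ0, Units.ext (by simpa using hβ)⟩

/-- A chosen `n`-th root of `a ∈ D`. -/
noncomputable def root (a : D) : Lˣ := (h.exists_unit_root a).choose

theorem root_pow (a : D) : h.root a ^ n = unitsMap K L a := (h.exists_unit_root a).choose_spec

/-- The Kummer pairing `(σ, a) ↦ σ(a^{1/n}) / a^{1/n}`. -/
noncomputable def chi : (L ≃ₐ[K] L) →* (D →* Lˣ) where
  toFun σ :=
    { toFun := fun a => kq σ (h.root a)
      map_one' := by
        have : h.root 1 ^ n = (unitsMap K L 1) ^ n := by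
          rw [h.root_pow]; simp
        rw [kq_eq_of_pow_eq h.prim σ this, kq_unitsMap]
      map_mul' := fun a b => by
        rw [← kq_mul_right]
        apply kq_eq_of_pow_eq h.prim
        rw [mul_pow, h.root_pow, h.root_pow, h.root_pow]
        simp }
  map_one' := by
    ext a
    simp
  map_mul' σ τ := by
    ext a
    simp only [MonoidHom.coe_mk, OneHom.coe_mk, MonoidHom.mul_apply]
    rw [kq_mul_left h.prim σ τ (h.root_pow a)]

theorem chi_apply (σ : L ≃ₐ[K] L) (a : D) : h.chi σ a = kq σ (h.root a) := rfl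

/-- The pairing can be computed with any `n`-th root. -/
theorem chi_apply_of_pow_eq (σ : L ≃ₐ[K] L) (a : D) {β : Lˣ} (hβ : β ^ n = unitsMap K L a) :
    h.chi σ a = kq σ β := by
  rw [chi_apply]
  apply kq_eq_of_pow_eq h.prim
  rw [h.root_pow, hβ]

theorem chi_pow_eq_one (σ : L ≃ₐ[K] L) (a : D) : h.chi σ a ^ n = 1 :=
  kq_pow_eq_one σ (h.root_pow a)

theorem chi_eq_one_iff (σ : L ≃ₐ[K] L) (a : D) {β : L}
    (hβ : β ^ n = algebraMap K L ((a : Kˣ) : K)) : h.chi σ a = 1 ↔ σ β = β := by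
  have hβ0 : β ≠ 0 := by
    rintro rfl
    rw [zero_pow (NeZero.ne n)] at hβ
    exact (Units.ne_zero (unitsMap K L (a : Kˣ))) hβ.symm
  have : (Units.mk0 β hβ0) ^ n = unitsMap K L a := Units.ext (by simpa using hβ)
  rw [h.chi_apply_of_pow_eq σ a this, kq_eq_one_iff]
  rfl

/-- The pairing kills `n`-th powers. -/
theorem chi_of_mem_nthPowers (σ : L ≃ₐ[K] L) (a : D) (ha : (a : Kˣ) ∈ nthPowers n K) :
    h.chi σ a = 1 := by
  obtain ⟨c, hc⟩ := ha
  have : (unitsMap K L c) ^ n = unitsMap K L a := by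
    rw [← map_pow]; congr 1
  rw [h.chi_apply_of_pow_eq σ a this, kq_unitsMap]

/-- Left non-degeneracy: an automorphism pairing trivially with all of `D` is the identity. -/
theorem eq_one_of_chi_eq_one (σ : L ≃ₐ[K] L) (hσ : ∀ a : D, h.chi σ a = 1) : σ = 1 := by
  have hle : IntermediateField.adjoin K (radicalSet n D L)
      ≤ IntermediateField.fixedField (Subgroup.zpowers σ) := by
    rw [IntermediateField.adjoin_le_iff]
    rintro β ⟨a, ha, hβ⟩
    have h1 : σ β = β := (h.chi_eq_one_iff σ ⟨a, ha⟩ hβ).mp (hσ ⟨a, ha⟩)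
    rw [SetLike.mem_coe, IntermediateField.mem_fixedField_iff]
    intro f hf
    obtain ⟨k, rfl⟩ := Subgroup.mem_zpowers_iff.mp hf
    have h2 : ∀ m : ℕ, (σ ^ m) β = β := by
      intro m
      induction m with
      | zero => simp
      | succ m ih => rw [pow_succ, AlgEquiv.mul_apply, h1, ih]
    have h3 : ∀ m : ℕ, (σ ^ m)⁻¹ β = β := by
      intro m
      have := h2 m
      calc (σ ^ m)⁻¹ β = (σ ^ m)⁻¹ ((σ ^ m) β) := by rw [this]
        _ = β := by
          rw [← AlgEquiv.mul_apply, inv_mul_cancel, AlgEquiv.one_apply]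
    cases k with
    | ofNat m => simpa using h2 m
    | negSucc m => simpa [zpow_negSucc] using h3 (m + 1)
  rw [h.adjoin_eq_top] at hle
  ext x
  have hx : x ∈ IntermediateField.fixedField (Subgroup.zpowers σ) := hle trivial
  rw [IntermediateField.mem_fixedField_iff] at hx
  exact hx σ (Subgroup.mem_zpowers σ)

theorem chi_injective : Function.Injective h.chi := by
  rw [injective_iff_map_eq_one]
  intro σ hσ
  exact h.eq_one_of_chi_eq_one σ fun a => by rw [hσ]; rfl

/-- The Galois group of a Kummer extension is commutative. -/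
theorem mul_comm' (σ τ : L ≃ₐ[K] L) : σ * τ = τ * σ := by
  apply h.chi_injective
  rw [map_mul, map_mul]
  exact mul_comm (h.chi σ) (h.chi τ)

/-- The Galois group of a Kummer extension has exponent dividing `n`. -/
theorem pow_eq_one (σ : L ≃ₐ[K] L) : σ ^ n = 1 := by
  apply h.chi_injective
  rw [map_pow, map_one]
  ext a
  rw [MonoidHom.pow_apply, h.chi_pow_eq_one, MonoidHom.one_apply]

end IsKummer

end Fermat.Agent.CFT.KummerTheory
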